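import Fermat.Agent.S59.TW.Spec
import Fermat.Agent.S55.G.Rec.H63AuxField

/-!
# Row S59, cell TW, leaf CYC (helper59): inertia at `q` surjects onto `(ℤ/q)^×`

`cycloSurj : CycloSurjStatement`, from the total ramification of `ℚ(ζ_q)` at `q`
(`Fermat.Agent.S55.G.Rec.exists_inertia_cycloChar_eq63`) and the surjectivity of the mod `q`
cyclotomic character (`cycloChar_surjective63`).
-/

set_option autoImplicit false
set_option linter.style.haveILetI false

namespace Fermat.Agent.S59.TW.H59

open Fermat.Agent.S59.TW Fermat.Agent.S55.G.Rec Fermat.Agent.S55.Bridge ExtCitation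

/-- **CYC.** -/
theorem cycloSurj : CycloSurjStatement := by
  intro q hq P hP a
  haveI : Fact q.Prime := ⟨hq⟩
  obtain ⟨g, hg⟩ := cycloChar_surjective63 q a
  obtain ⟨σ, hσ, hσg⟩ := exists_inertia_cycloChar_eq63 q P hP g
  rw [hg] at hσg
  refine ⟨σ, hσ, fun μ hμ => ?_⟩
  have hμ0 : μ ≠ 0 := by
    rintro rfl
    rw [zero_pow hq.ne_zero] at hμ
    exact zero_ne_one hμ
  have hmem : Units.mk0 μ hμ0 ∈ rootsOfUnity q (AlgebraicClosure ℚ) := by
    rw [mem_rootsOfUnity]
    apply Units.ext
    rw [Units.val_pow_eq_pow_val, Units.val_mk0, hμ, Units.val_one]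
  have h := cycloChar_spec q σ hmem
  rw [Units.val_mk0, hσg] at h
  exact h

end Fermat.Agent.S59.TW.H59
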